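import Fermat.Agent.S36.Val.Disc.Taylor

/-!
# S36/Val/Disc/Struct : centre, value group, residue field, uniqueness
-/

set_option autoImplicit false

namespace Fermat.Agent.S36.Val

open AlgebraicCurve Fermat.Agent.Lib.RR Fermat.Agent.GAL.RED Polynomial

variable {K F k Fb : Type*} [Field K] [Field F] [Algebra K F] [Field k] [Field Fb] [Algebra k Fb]
variable [IsFF K F] [IsAlgClosed K] [IsFF k Fb] [IsAlgClosed k]
variable {R : RedData K F k Fb} {r : Place K F → Place k Fb} {e : Place k Fb} {x : F} {ρ : K}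

variable {O : ValuationSubring F}

set_option linter.unusedSectionVars false

/-! ### auxiliary lemmas -/

theorem Struct_algebraMap_mem_iff (hO : IsDiscVal R r e x ρ O) (a : K) :
    algebraMap K F a ∈ O ↔ a ∈ R.A := by
  rw [← hO.comap]; rfl

theorem Struct_val_algebraMap_le (hO : IsDiscVal R r e x ρ O) (a : K) :
    O.valuation (algebraMap K F a) ≤ 1 ↔ a ∈ R.A := by
  rw [ValuationSubring.valuation_le_one_iff, Struct_algebraMap_mem_iff hO]

theorem Struct_val_algebraMap_lt (hO : IsDiscVal R r e x ρ O) (a : K) :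
    O.valuation (algebraMap K F a) < 1 ↔ a ∈ R.A.nonunits := by
  rw [← ValuationSubring.mem_nonunits_iff, ← mem_nonunits_comap_iff, hO.comap]

theorem Struct_val_y_le (hO : IsDiscVal R r e x ρ O) :
    O.valuation ((algebraMap K F ρ)⁻¹ * x) ≤ 1 :=
  (ValuationSubring.valuation_le_one_iff _ _).mpr hO.y_mem

theorem Struct_val_le_of_mem (hO : IsDiscVal R r e x ρ O) {g : F} (hg : g ∈ discRing R r e) :
    O.valuation g ≤ 1 :=
  (ValuationSubring.valuation_le_one_iff _ _).mpr (hO.ring_le hg)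

theorem Struct_aeval_mem (hO : IsDiscVal R r e x ρ O) {G : K[X]} (hG : IntPoly R.A G) :
    aeval ((algebraMap K F ρ)⁻¹ * x) G ∈ O := by
  rw [aeval_eq_sum_range]
  refine sum_mem fun i _ => ?_
  rw [Algebra.smul_def]
  exact mul_mem ((Struct_algebraMap_mem_iff hO _).mpr (hG i)) (pow_mem hO.y_mem i)

theorem Struct_val_aeval (hO : IsDiscVal R r e x ρ O) {G : K[X]} (hG : PrimPoly R.A G) :
    O.valuation (aeval ((algebraMap K F ρ)⁻¹ * x) G) = 1 := by
  refine le_antisymm ((ValuationSubring.valuation_le_one_iff _ _).mpr (Struct_aeval_mem hO hG.1)) ?_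
  by_contra hcon
  exact hO.y_trans G hG ((ValuationSubring.mem_nonunits_iff O).mpr (not_le.mp hcon))

theorem Struct_val_small (hO : IsDiscVal R r e x ρ O) {μ : K} (hμ : μ ∈ R.A.nonunits) (n : ℕ)
    {g : F} (hg : g ∈ discRing R r e) :
    O.valuation (algebraMap K F μ * ((algebraMap K F ρ)⁻¹ * x) ^ n * g) < 1 := by
  rw [map_mul, map_mul, map_pow]
  have h1 := (Struct_val_algebraMap_lt hO μ).mpr hμ
  have h2 : O.valuation ((algebraMap K F ρ)⁻¹ * x) ^ n ≤ 1 := pow_le_one' (Struct_val_y_le hO) n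
  have h3 := Struct_val_le_of_mem hO hg
  calc O.valuation (algebraMap K F μ) * O.valuation ((algebraMap K F ρ)⁻¹ * x) ^ n * O.valuation g
      ≤ O.valuation (algebraMap K F μ) * 1 * 1 := by gcongr
    _ < 1 := by simpa using h1

/-- the decomposition of a nonzero function, uniform in the valuation. -/
theorem Struct_decomp (hr : IsRedMap R r) (hC : R.IsCartesian) (h : DiscHyp R r e x ρ) {f : F}
    (hf : f ≠ 0) :
    ∃ (θ : K) (G₁ G₂ : K[X]) (m₁ m₂ : F), θ ≠ 0 ∧ PrimPoly R.A G₁ ∧ PrimPoly R.A G₂ ∧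
      (∀ O : ValuationSubring F, IsDiscVal R r e x ρ O →
        O.valuation m₁ < 1 ∧ O.valuation m₂ < 1) ∧
      f * (aeval ((algebraMap K F ρ)⁻¹ * x) G₂ + m₂)
        = algebraMap K F θ * (aeval ((algebraMap K F ρ)⁻¹ * x) G₁ + m₁) := by
  obtain ⟨g₁, g₂, hg₁, hg₂, hg₂0, hfg⟩ := exists_frac hr hC h f
  have hg₁0 : g₁ ≠ 0 := by
    rintro rfl
    rw [zero_div] at hfg
    exact hf hfg
  obtain ⟨η₁, μ₁, G₁, n₁, k₁, hη₁, -, hμ₁, hG₁, hk₁, e₁⟩ := exists_normal_form hr h hg₁ hg₁0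
  obtain ⟨η₂, μ₂, G₂, n₂, k₂, hη₂, -, hμ₂, hG₂, hk₂, e₂⟩ := exists_normal_form hr h hg₂ hg₂0
  refine ⟨η₁ * η₂⁻¹, G₁, G₂, _, _, mul_ne_zero hη₁ (inv_ne_zero hη₂), hG₁, hG₂,
    fun O hO => ⟨Struct_val_small hO hμ₁ n₁ hk₁, Struct_val_small hO hμ₂ n₂ hk₂⟩, ?_⟩
  have hc : algebraMap K F η₂ ≠ 0 := by simpa using hη₂
  have h1 : f * g₂ = g₁ := by rw [hfg, div_mul_cancel₀ _ hg₂0]
  rw [e₁, e₂] at h1
  rw [map_mul, map_inv₀]
  generalize aeval ((algebraMap K F ρ)⁻¹ * x) G₁ +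
    algebraMap K F μ₁ * ((algebraMap K F ρ)⁻¹ * x) ^ n₁ * k₁ = u₁ at h1 ⊢
  generalize aeval ((algebraMap K F ρ)⁻¹ * x) G₂ +
    algebraMap K F μ₂ * ((algebraMap K F ρ)⁻¹ * x) ^ n₂ * k₂ = u₂ at h1 ⊢
  have h2 : f * u₂ = (algebraMap K F η₂)⁻¹ * (f * (algebraMap K F η₂ * u₂)) := by
    field_simp
  rw [h2, h1]
  ring

theorem Struct_val_eq (hO : IsDiscVal R r e x ρ O) {f : F} {θ : K} {G₁ G₂ : K[X]} {m₁ m₂ : F}
    (hG₁ : PrimPoly R.A G₁) (hG₂ : PrimPoly R.A G₂) (hm₁ : O.valuation m₁ < 1)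
    (hm₂ : O.valuation m₂ < 1)
    (hf : f * (aeval ((algebraMap K F ρ)⁻¹ * x) G₂ + m₂)
        = algebraMap K F θ * (aeval ((algebraMap K F ρ)⁻¹ * x) G₁ + m₁)) :
    O.valuation f = O.valuation (algebraMap K F θ) := by
  have h1 := congrArg O.valuation hf
  rw [map_mul, map_mul,
    Valuation.map_add_eq_of_lt_left _ (by rw [Struct_val_aeval hO hG₂]; exact hm₂),
    Valuation.map_add_eq_of_lt_left _ (by rw [Struct_val_aeval hO hG₁]; exact hm₁),
    Struct_val_aeval hO hG₁, Struct_val_aeval hO hG₂, mul_one, mul_one] at h1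
  exact h1

/-- (S1) centre: `f ∈ discRing` with `f̄ = 0` or `f̄(e) = 0` is in the maximal ideal of `O`.
PROOF: `f = γ + x g = γ + ρ y g` with `γ = f(P₀) ∈ 𝔪_A`. -/
theorem IsDiscVal.mem_nonunits (hO : IsDiscVal R r e x ρ O) (hr : IsRedMap R r)
    (h : DiscHyp R r e x ρ) {f : F} (hf : f ∈ discRing R r e)
    (hfe : R.red f = 0 ∨ 0 < e.ord (R.red f)) : f ∈ O.nonunits := by
  classical
  obtain ⟨a, g, ha, hg, hfa⟩ := exists_taylor hr h hf 1
  simp only [Finset.range_one, Finset.sum_singleton, pow_zero, mul_one, pow_one] at hfa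
  obtain ⟨P₀, hP₀, hord⟩ := exists_point hr h 0 (by
    rw [ValuationSubring.mem_nonunits_iff, map_zero]; exact zero_lt_one)
  have hx1 : P₀.ord x = 1 := by
    have := hord P₀ hP₀
    rwa [map_zero, sub_zero, if_pos rfl] at this
  have hx0 : x ≠ 0 := by
    rintro rfl
    rw [Place.ord_zero] at hx1
    exact zero_ne_one hx1
  have hval : f = algebraMap K F (a 0) ∨ 0 < P₀.ord (f - algebraMap K F (a 0)) := by
    by_cases hg0 : g = 0
    · left; rw [hfa, hg0, mul_zero, add_zero]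
    · right
      have : f - algebraMap K F (a 0) = x * g := by rw [hfa]; ring
      rw [this, P₀.ord_mul hx0 hg0, hx1]
      have := hg.2 P₀ hP₀
      omega
  have ha0 : a 0 ∈ R.A.nonunits := (value_small_iff hr hf hP₀ hval).mpr hfe
  rw [ValuationSubring.mem_nonunits_iff, hfa]
  refine lt_of_le_of_lt (Valuation.map_add _ _ _) (max_lt ((Struct_val_algebraMap_lt hO _).mpr ha0) ?_)
  have hρ : algebraMap K F ρ ≠ 0 := by simpa using h.ρ_ne
  have hxy : x = algebraMap K F ρ * ((algebraMap K F ρ)⁻¹ * x) := by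
    rw [← mul_assoc, mul_inv_cancel₀ hρ, one_mul]
  rw [hxy, map_mul, map_mul]
  have h1 := (Struct_val_algebraMap_lt hO ρ).mpr h.ρ_small
  have h2 := Struct_val_y_le hO
  have h3 := Struct_val_le_of_mem hO hg
  calc O.valuation (algebraMap K F ρ) * O.valuation ((algebraMap K F ρ)⁻¹ * x) * O.valuation g
      ≤ O.valuation (algebraMap K F ρ) * 1 * 1 := by gcongr
    _ < 1 := by simpa using h1

/-- (S2) value group: every nonzero `f` is a constant times a unit of `O`. -/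
theorem IsDiscVal.exists_scale (hO : IsDiscVal R r e x ρ O) (hr : IsRedMap R r)
    (hC : R.IsCartesian) (h : DiscHyp R r e x ρ) {f : F} (hf : f ≠ 0) :
    ∃ η : K, η ≠ 0 ∧ algebraMap K F η * f ∈ O ∧ algebraMap K F η * f ∉ O.nonunits := by
  obtain ⟨θ, G₁, G₂, m₁, m₂, hθ, hG₁, hG₂, hm, hfe⟩ := Struct_decomp hr hC h hf
  have hv := Struct_val_eq hO hG₁ hG₂ (hm O hO).1 (hm O hO).2 hfe
  have hc : algebraMap K F θ ≠ 0 := by simpa using hθ
  have h1 : O.valuation (algebraMap K F θ⁻¹ * f) = 1 := by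
    rw [map_mul, hv, ← map_mul, map_inv₀, inv_mul_cancel₀ hc, map_one]
  refine ⟨θ⁻¹, inv_ne_zero hθ, (ValuationSubring.valuation_le_one_iff _ _).mp h1.le, ?_⟩
  rw [ValuationSubring.mem_nonunits_iff, h1]
  exact lt_irrefl _

/-- (S3) residue field `= k(ȳ)`: every `f ∈ O` is congruent to `G(y) / H(y)`. -/
theorem IsDiscVal.exists_ratfunc (hO : IsDiscVal R r e x ρ O) (hr : IsRedMap R r)
    (hC : R.IsCartesian) (h : DiscHyp R r e x ρ) {f : F} (hf : f ∈ O) :
    ∃ G H : K[X], IntPoly R.A G ∧ PrimPoly R.A H ∧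
      f * aeval ((algebraMap K F ρ)⁻¹ * x) H - aeval ((algebraMap K F ρ)⁻¹ * x) G ∈ O.nonunits := by
  by_cases hf0 : f = 0
  · refine ⟨0, 1, fun i => by simp [zero_mem], ⟨fun i => ?_, 0, ?_⟩, ?_⟩
    · rw [coeff_one]
      split_ifs
      · exact one_mem _
      · exact zero_mem _
    · rw [coeff_one_zero, ValuationSubring.mem_nonunits_iff, map_one]
      exact lt_irrefl _
    · rw [hf0, zero_mul, map_zero, sub_zero, ValuationSubring.mem_nonunits_iff, map_zero]
      exact zero_lt_one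
  obtain ⟨θ, G₁, G₂, m₁, m₂, hθ, hG₁, hG₂, hm, hfe⟩ := Struct_decomp hr hC h hf0
  have hv := Struct_val_eq hO hG₁ hG₂ (hm O hO).1 (hm O hO).2 hfe
  have hf1 : O.valuation f ≤ 1 := (ValuationSubring.valuation_le_one_iff _ _).mpr hf
  have hθA : θ ∈ R.A := (Struct_val_algebraMap_le hO θ).mp (hv ▸ hf1)
  refine ⟨C θ * G₁, G₂, fun i => ?_, hG₂, ?_⟩
  · rw [coeff_C_mul]
    exact mul_mem hθA (hG₁.1 i)
  · have e1 : f * aeval ((algebraMap K F ρ)⁻¹ * x) G₂ - aeval ((algebraMap K F ρ)⁻¹ * x) (C θ * G₁)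
        = algebraMap K F θ * m₁ - f * m₂ := by
      rw [map_mul, aeval_C]
      linear_combination hfe
    rw [e1, ValuationSubring.mem_nonunits_iff]
    refine lt_of_le_of_lt (Valuation.map_sub _ _ _) (max_lt ?_ ?_)
    · rw [map_mul]
      calc O.valuation (algebraMap K F θ) * O.valuation m₁ ≤ 1 * O.valuation m₁ := by
            gcongr; exact hv ▸ hf1
        _ < 1 := by simpa using (hm O hO).1
    · rw [map_mul]
      calc O.valuation f * O.valuation m₂ ≤ 1 * O.valuation m₂ := by gcongr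
        _ < 1 := by simpa using (hm O hO).2

/-- (S4) **uniqueness.** -/
theorem IsDiscVal.unique (hO : IsDiscVal R r e x ρ O) {O' : ValuationSubring F}
    (hO' : IsDiscVal R r e x ρ O') (hr : IsRedMap R r) (hC : R.IsCartesian)
    (h : DiscHyp R r e x ρ) : O' = O := by
  ext f
  by_cases hf0 : f = 0
  · simp [hf0, zero_mem]
  obtain ⟨θ, G₁, G₂, m₁, m₂, hθ, hG₁, hG₂, hm, hfe⟩ := Struct_decomp hr hC h hf0
  have hv := Struct_val_eq hO hG₁ hG₂ (hm O hO).1 (hm O hO).2 hfe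
  have hv' := Struct_val_eq hO' hG₁ hG₂ (hm O' hO').1 (hm O' hO').2 hfe
  rw [← ValuationSubring.valuation_le_one_iff, ← ValuationSubring.valuation_le_one_iff, hv, hv',
    Struct_val_algebraMap_le hO, Struct_val_algebraMap_le hO']

end Fermat.Agent.S36.Val
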