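import Fermat.Agent.S36.Val.Basic
import Fermat.Agent.GAL.RED.DiscParam

/-!
# S36/Val/Disc/Defs : the "Gauss point of a closed disc inside a residue disc"

`R : RedData K F k Fb` a good reduction (`IsRedMap R r`), `e` a point of the reduction, `x : F` an
integral function without pole on the residue disc `{P | r P = e}` whose reduction is a local
parameter at `e`; `ρ : K`, `0 < |ρ| < 1`.  We construct THE valuation subring `O` of `F` over `R.A`
with `y := x / ρ ∈ O`, the residue of `y` transcendental over `k`, containing all integral functions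
without pole on the residue disc.  Its residue field is `k(ȳ)`, its value group that of `K`.
-/

set_option autoImplicit false

namespace Fermat.Agent.S36.Val

open AlgebraicCurve Fermat.Agent.Lib.RR Fermat.Agent.GAL.RED Polynomial

variable {K F k Fb : Type*} [Field K] [Field F] [Algebra K F] [Field k] [Field Fb] [Algebra k Fb]

/-- The integral functions without pole on the residue disc of `e`. -/
def discRing (R : RedData K F k Fb) (r : Place K F → Place k Fb) (e : Place k Fb) : Subring F where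
  carrier := {f | f ∈ R.O ∧ ∀ P, r P = e → 0 ≤ P.ord f}
  mul_mem' := by
    rintro f g ⟨hf, hf'⟩ ⟨hg, hg'⟩
    refine ⟨R.O.mul_mem _ _ hf hg, fun P hP => ?_⟩
    by_cases hf0 : f = 0
    · rw [hf0, zero_mul, Place.ord_zero]
    by_cases hg0 : g = 0
    · rw [hg0, mul_zero, Place.ord_zero]
    rw [P.ord_mul hf0 hg0]
    exact add_nonneg (hf' P hP) (hg' P hP)
  one_mem' := ⟨R.O.one_mem, fun P _ => by rw [Place.ord_one]⟩
  add_mem' := by
    rintro f g ⟨hf, hf'⟩ ⟨hg, hg'⟩
    refine ⟨R.O.add_mem _ _ hf hg, fun P hP => ?_⟩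
    by_cases h0 : f + g = 0
    · rw [h0, Place.ord_zero]
    exact le_trans (le_min (hf' P hP) (hg' P hP)) (min_le_ord_add P h0)
  zero_mem' := ⟨R.O.zero_mem, fun P _ => by rw [Place.ord_zero]⟩
  neg_mem' := by
    rintro f ⟨hf, hf'⟩
    exact ⟨R.O.neg_mem _ hf, fun P hP => by rw [ord_neg]; exact hf' P hP⟩

theorem mem_discRing {R : RedData K F k Fb} {r : Place K F → Place k Fb} {e : Place k Fb} {f : F} :
    f ∈ discRing R r e ↔ f ∈ R.O ∧ ∀ P, r P = e → 0 ≤ P.ord f := Iff.rfl

/-- `O` is "the Gauss point of the disc `|x| ≤ |ρ|`" in the residue disc of `e`. -/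
structure IsDiscVal (R : RedData K F k Fb) (r : Place K F → Place k Fb) (e : Place k Fb) (x : F)
    (ρ : K) (O : ValuationSubring F) : Prop where
  comap : O.comap (algebraMap K F) = R.A
  ring_le : discRing R r e ≤ O.toSubring
  y_mem : (algebraMap K F ρ)⁻¹ * x ∈ O
  y_trans : ∀ G : K[X], PrimPoly R.A G → aeval ((algebraMap K F ρ)⁻¹ * x) G ∉ O.nonunits

/-- The standing hypotheses. -/
structure DiscHyp (R : RedData K F k Fb) (r : Place K F → Place k Fb) (e : Place k Fb) (x : F)
    (ρ : K) : Prop where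
  red_ne : R.red x ≠ 0
  ord_e : e.ord (R.red x) = 1
  reg : ∀ P, r P = e → 0 ≤ P.ord x
  ρ_ne : ρ ≠ 0
  ρ_small : ρ ∈ R.A.nonunits
  arch : ∀ η : K, η ≠ 0 → ∃ n : ℕ, ρ ^ n * η⁻¹ ∈ R.A.nonunits

end Fermat.Agent.S36.Val
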