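import Fermat.Agent.S36.Val.Disc.Taylor
import Fermat.Agent.Lib.PlaceEval

/-!
# S36/Val/Disc/Exists : existence of the Gauss point of a closed disc in a residue disc
-/

set_option autoImplicit false

namespace Fermat.Agent.S36.Val

open AlgebraicCurve Fermat.Agent.Lib.RR Fermat.Agent.GAL.RED Polynomial
open Fermat.Agent.Lib.PlaceEval

variable {K F k Fb : Type*} [Field K] [Field F] [Algebra K F] [Field k] [Field Fb] [Algebra k Fb]
variable [IsFF K F] [IsAlgClosed K] [IsFF k Fb] [IsAlgClosed k]
variable {R : RedData K F k Fb} {r : Place K F → Place k Fb} {e : Place k Fb} {x : F} {ρ : K}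

/-! ### The ring of functions which are regular with integral values at a family of points -/

/-- The functions regular at all the points `Pt a`, with values in `A`. -/
def existsValRing (A : ValuationSubring K) {ι : Type*} (Pt : ι → Place K F) : Subring F where
  carrier := {f | ∀ a, 0 ≤ (Pt a).ord f ∧ ev (Pt a) f ∈ A}
  mul_mem' := by
    intro f g hf hg a
    have h1 : 0 ≤ (Pt a).ord (f * g) :=
      (mem_iff (Pt a)).1 (mul_mem ((mem_iff (Pt a)).2 (hf a).1) ((mem_iff (Pt a)).2 (hg a).1))
    exact ⟨h1, by rw [ev_mul _ (hf a).1 (hg a).1]; exact A.mul_mem _ _ (hf a).2 (hg a).2⟩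
  one_mem' := fun a => ⟨by rw [Place.ord_one], by rw [ev_one]; exact A.one_mem⟩
  add_mem' := by
    intro f g hf hg a
    have h1 : 0 ≤ (Pt a).ord (f + g) :=
      (mem_iff (Pt a)).1 (add_mem ((mem_iff (Pt a)).2 (hf a).1) ((mem_iff (Pt a)).2 (hg a).1))
    exact ⟨h1, by rw [ev_add _ (hf a).1 (hg a).1]; exact A.add_mem _ _ (hf a).2 (hg a).2⟩
  zero_mem' := fun a => ⟨by rw [Place.ord_zero], by rw [ev_zero]; exact A.zero_mem⟩
  neg_mem' := by
    intro f hf a
    exact ⟨by rw [ord_neg]; exact (hf a).1, by rw [ev_neg]; exact A.neg_mem _ (hf a).2⟩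

/-- Evaluation at `Pt a` followed by the reduction of constants. -/
noncomputable def existsValHom (R : RedData K F k Fb) {ι : Type*} (Pt : ι → Place K F) (a : ι) :
    existsValRing R.A Pt →+* k where
  toFun f := R.redA (ev (Pt a) (f : F))
  map_one' := by simp
  map_mul' f g := by
    rw [Subring.coe_mul, ev_mul _ (f.2 a).1 (g.2 a).1, R.redA_mul (f.2 a).2 (g.2 a).2]
  map_zero' := by simp
  map_add' f g := by
    rw [Subring.coe_add, ev_add _ (f.2 a).1 (g.2 a).1, R.redA_add (f.2 a).2 (g.2 a).2]

omit [IsFF k Fb] [IsAlgClosed k] in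
theorem existsValHom_apply (R : RedData K F k Fb) {ι : Type*} (Pt : ι → Place K F) (a : ι)
    (f : existsValRing R.A Pt) : existsValHom R Pt a f = R.redA (ev (Pt a) (f : F)) := rfl

theorem exists_algebraMap_mem (A : ValuationSubring K) {ι : Type*} (Pt : ι → Place K F) {c : K}
    (hc : c ∈ A) : algebraMap K F c ∈ existsValRing A Pt := fun a =>
  ⟨by rw [ord_algebraMap], by rw [ev_algebraMap]; exact hc⟩

/-- The constants of `A` inside the ring. -/
noncomputable def existsConstHom (A : ValuationSubring K) {ι : Type*} (Pt : ι → Place K F) :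
    A →+* existsValRing A Pt where
  toFun c := ⟨algebraMap K F c, exists_algebraMap_mem A Pt c.2⟩
  map_one' := by ext; simp
  map_mul' c d := by ext; simp
  map_zero' := by ext; simp
  map_add' c d := by ext; simp

/-! ### The valuation -/

/-- (E) **existence.**  PROOF.  For `a ∈ k` choose a lift `α a ∈ A` and the point `Pt a` of the disc
with `x = ρ α` (`exists_point`).  Let `𝓡` be the ring of the functions which are regular with
integral values at all the `Pt a`; it contains `discRing` (`exists_value`), `A` and `y`.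
`𝓡 → (k → k) → Germ (hyperfilter k) k` (a field) and Chevalley. -/
theorem exists_isDiscVal (hr : IsRedMap R r) (h : DiscHyp R r e x ρ) :
    ∃ O : ValuationSubring F, IsDiscVal R r e x ρ O := by
  classical
  -- the points
  have hlift : ∀ a : k, ∃ α : K, α ∈ R.A ∧ R.redA α = a := fun a => R.exists_liftA a
  choose α hαA hαa using hlift
  have hsmall : ∀ a, ρ * α a ∈ R.A.nonunits := by
    intro a
    have h1 := h.ρ_small
    rw [ValuationSubring.mem_nonunits_iff] at h1 ⊢
    rw [map_mul]
    calc R.A.valuation ρ * R.A.valuation (α a) ≤ R.A.valuation ρ * 1 := by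
          gcongr
          exact (R.A.valuation_le_one_iff _).2 (hαA a)
      _ < 1 := by rwa [mul_one]
  have hpt : ∀ a, ∃ P₀ : Place K F, r P₀ = e ∧ 0 < P₀.ord (x - algebraMap K F (ρ * α a)) := by
    intro a
    obtain ⟨P₀, hP₀, hP⟩ := exists_point hr h (ρ * α a) (hsmall a)
    refine ⟨P₀, hP₀, ?_⟩
    rw [hP P₀ hP₀, if_pos rfl]
    exact one_pos
  choose Pt hPte hPtx using hpt
  set 𝓡 := existsValRing R.A Pt with h𝓡
  -- `discRing ≤ 𝓡`
  have hdisc : discRing R r e ≤ 𝓡 := by
    intro f hf a
    have h0 : 0 ≤ (Pt a).ord f := hf.2 _ (hPte a)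
    obtain ⟨γ, hγ, hfγ⟩ := exists_value hr hf (hPte a)
    exact ⟨h0, by rw [(ev_eq_iff (Pt a) h0 γ).2 hfγ]; exact hγ⟩
  -- `y ∈ 𝓡`, with value `α a`
  set y : F := (algebraMap K F ρ)⁻¹ * x with hy
  have hρF : algebraMap K F ρ ≠ 0 := by
    rw [Ne, map_eq_zero]; exact h.ρ_ne
  have hyeq : y = algebraMap K F ρ⁻¹ * x := by rw [hy, map_inv₀]
  have hxord : ∀ a, 0 ≤ (Pt a).ord x := fun a => h.reg _ (hPte a)
  have hxev : ∀ a, ev (Pt a) x = ρ * α a := fun a =>
    (ev_eq_iff (Pt a) (hxord a) _).2 (Or.inr (hPtx a))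
  have hyord : ∀ a, 0 ≤ (Pt a).ord y := by
    intro a
    rw [hyeq]
    exact (mem_iff (Pt a)).1 (mul_mem ((Pt a).algebraMap_mem' _) ((mem_iff (Pt a)).2 (hxord a)))
  have hyev : ∀ a, ev (Pt a) y = α a := by
    intro a
    rw [hyeq, ev_mul _ (by rw [ord_algebraMap]) (hxord a), ev_algebraMap, hxev,
      ← mul_assoc, inv_mul_cancel₀ h.ρ_ne, one_mul]
  have hy𝓡 : y ∈ 𝓡 := fun a => ⟨hyord a, by rw [hyev]; exact hαA a⟩
  -- the homomorphism to the ultrapower
  let φ : 𝓡 →+* Filter.Germ ((Filter.hyperfilter k : Ultrafilter k) : Filter k) k :=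
    (Filter.Germ.coeRingHom _).comp (RingHom.pi (existsValHom R Pt))
  have hφ0 : ∀ f : 𝓡, φ f = 0 ↔
      {a : k | R.redA (ev (Pt a) (f : F)) = 0} ∈ (Filter.hyperfilter k : Filter k) := by
    intro f
    have : φ f = ((fun a => R.redA (ev (Pt a) (f : F)) : k → k) :
        Filter.Germ ((Filter.hyperfilter k : Ultrafilter k) : Filter k) k) := rfl
    rw [this, ← Filter.Germ.coe_zero, Filter.Germ.coe_eq]
    rfl
  obtain ⟨O, hRO, hO⟩ := exists_valuationSubring_of_ringHom 𝓡 φ
  refine ⟨O, ?_, hdisc.trans hRO, hRO hy𝓡, ?_⟩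
  · -- `O ∩ K = A`
    ext c
    rw [ValuationSubring.mem_comap]
    constructor
    · intro hc
      by_contra hcA
      have hc0 : c ≠ 0 := by
        rintro rfl
        exact hcA R.A.zero_mem
      have hinv : c⁻¹ ∈ R.A.nonunits := by
        rw [ValuationSubring.inv_mem_nonunits_iff]
        exact Or.inr hcA
      have hinvA : c⁻¹ ∈ R.A := R.A.nonunits_subset hinv
      have h1 : algebraMap K F c⁻¹ ∈ O.nonunits := by
        refine (hO ⟨algebraMap K F c⁻¹, exists_algebraMap_mem R.A Pt hinvA⟩).2 ?_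
        rw [hφ0]
        have : {a : k | R.redA (ev (Pt a) (algebraMap K F c⁻¹)) = 0} = Set.univ := by
          ext a
          simp only [Set.mem_ofPred_eq, Set.mem_univ, iff_true, ev_algebraMap]
          exact (R.redA_eq_zero_iff hinvA).2 ((ValuationSubring.mem_nonunits_iff _).1 hinv)
        rw [this]
        exact Filter.univ_mem
      rw [ValuationSubring.mem_nonunits_iff] at h1
      have h2 : O.valuation (algebraMap K F c) ≤ 1 := (O.valuation_le_one_iff _).2 hc
      have h3 : O.valuation (algebraMap K F c) * O.valuation (algebraMap K F c⁻¹) = 1 := by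
        rw [← map_mul, ← map_mul, mul_inv_cancel₀ hc0, map_one, map_one]
      have h4 : O.valuation (algebraMap K F c) * O.valuation (algebraMap K F c⁻¹) < 1 :=
        lt_of_le_of_lt (mul_le_of_le_one_left' h2) h1
      rw [h3] at h4
      exact lt_irrefl _ h4
    · intro hc
      exact hRO (exists_algebraMap_mem R.A Pt hc)
  · -- transcendence of the residue of `y`
    intro G hG hmem
    obtain ⟨hGint, i, hi⟩ := hG
    -- lift `G` to `A[X]`
    have hlifts : G ∈ Polynomial.lifts R.A.subtype := by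
      rw [Polynomial.lifts_iff_coeff_lifts]
      intro j
      exact ⟨⟨G.coeff j, hGint j⟩, rfl⟩
    obtain ⟨G', hG'⟩ := (Polynomial.mem_lifts _).1 hlifts
    set Y : 𝓡 := ⟨y, hy𝓡⟩ with hY
    set g : 𝓡 := G'.eval₂ (existsConstHom R.A Pt) Y with hg
    have hgF : (g : F) = aeval y G := by
      have h1 : 𝓡.subtype g = G'.eval₂ (𝓡.subtype.comp (existsConstHom R.A Pt)) (𝓡.subtype Y) := by
        rw [hg, Polynomial.hom_eval₂]
      have h2 : aeval y G = G'.eval₂ ((algebraMap K F).comp R.A.subtype) y := by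
        rw [← hG', aeval_def, Polynomial.eval₂_map]
      rw [h2]
      exact h1
    have hgev : ∀ a, existsValHom R Pt a g = (G'.map R.resA).eval a := by
      intro a
      rw [hg, Polynomial.hom_eval₂, Polynomial.eval_map]
      have h1 : (existsValHom R Pt a).comp (existsConstHom R.A Pt) = R.resA := by
        ext c
        show R.redA (ev (Pt a) (algebraMap K F (c : K))) = R.resA c
        rw [ev_algebraMap, R.redA_of_mem c.2]
      have h2 : existsValHom R Pt a Y = a := by
        show R.redA (ev (Pt a) y) = a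
        rw [hyev, hαa]
      rw [h1, h2]
    have hne : G'.map R.resA ≠ 0 := by
      intro h0
      have h1 : (G'.map R.resA).coeff i = 0 := by rw [h0, coeff_zero]
      rw [coeff_map] at h1
      have h2 : ((G'.coeff i : R.A) : K) = G.coeff i := by
        rw [← hG', coeff_map]; rfl
      apply hi
      rw [ValuationSubring.mem_nonunits_iff, ← h2,
        ← R.redA_eq_zero_iff (G'.coeff i).2, R.redA_of_mem (G'.coeff i).2]
      exact h1
    have h1 : φ g = 0 := (hO g).1 (by rw [hgF]; exact hmem)
    rw [hφ0] at h1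
    have h2 : {a : k | R.redA (ev (Pt a) (g : F)) = 0} ⊆ {a | (G'.map R.resA).IsRoot a} := by
      intro a ha
      show (G'.map R.resA).eval a = 0
      rw [← hgev a]
      exact ha
    have h3 : {a : k | R.redA (ev (Pt a) (g : F)) = 0}.Finite :=
      (Polynomial.finite_setOfPred_isRoot hne).subset h2
    exact Filter.notMem_hyperfilter_of_finite h3 h1

end Fermat.Agent.S36.Val
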