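import Fermat.Agent.S36.Val.Disc.Defs

/-!
# S36/Val/Disc/Points : points of a residue disc, values, division by `x - α`
-/

set_option autoImplicit false

namespace Fermat.Agent.S36.Val

open AlgebraicCurve Fermat.Agent.Lib.RR Fermat.Agent.GAL.RED Polynomial

variable {K F k Fb : Type*} [Field K] [Field F] [Algebra K F] [Field k] [Field Fb] [Algebra k Fb]

/-- elements of `𝔪_A` are integral with zero reduction. -/
theorem Points_small {R : RedData K F k Fb} {α : K} (hα : α ∈ R.A.nonunits) :
    α ∈ R.A ∧ R.redA α = 0 := by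
  have h1 : R.A.valuation α < 1 := R.A.mem_nonunits_iff.mp hα
  have h2 : α ∈ R.A := (R.A.valuation_le_one_iff α).mp h1.le
  exact ⟨h2, (R.redA_eq_zero_iff h2).mpr h1⟩

theorem Points_mem_nonunits_iff {R : RedData K F k Fb} {α : K} (hα : α ∈ R.A) :
    α ∈ R.A.nonunits ↔ R.redA α = 0 := by
  rw [R.redA_eq_zero_iff hα]
  exact R.A.mem_nonunits_iff

variable [IsFF K F] [IsAlgClosed K] [IsFF k Fb] [IsAlgClosed k]
variable {R : RedData K F k Fb} {r : Place K F → Place k Fb} {e : Place k Fb} {x : F} {ρ : K}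

/-! ### Points of the disc -/

/-- (P1) For every `α ∈ 𝔪_A` there is exactly one point of the disc with `x = α`, and it is a simple
zero of `x - α`.  PROOF: `DiscParam_sub_small`, `IsRedMap.ord_red`,
`exists_unique_of_mapDomain_apply_eq_one`. -/
theorem exists_point (hr : IsRedMap R r) (h : DiscHyp R r e x ρ) (α : K) (hα : α ∈ R.A.nonunits) :
    ∃ P₀ : Place K F, r P₀ = e ∧ ∀ P, r P = e →
      P.ord (x - algebraMap K F α) = (open Classical in if P = P₀ then 1 else 0) := by
  obtain ⟨hαA, hα0⟩ := Points_small hα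
  have hred : R.red (x - algebraMap K F α) = R.red x := DiscParam_sub_small h.red_ne hαA hα0
  have hne : R.red (x - algebraMap K F α) ≠ 0 := by rw [hred]; exact h.red_ne
  have h1 : Finsupp.mapDomain r (divOf (K := K) (x - algebraMap K F α)) e = 1 := by
    rw [← hr.ord_red hne, hred, h.ord_e]
  obtain ⟨P₀, hP₀, hall⟩ := exists_unique_of_mapDomain_apply_eq_one r _ e
    (fun P hP => by
      rw [divOf_apply]
      exact DiscParam_ord_sub_nonneg P α (h.reg P hP) (R.ne_zero_of_red_ne_zero hne)) h1
  refine ⟨P₀, hP₀, fun P hP => ?_⟩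
  have := hall P hP
  rw [divOf_apply] at this
  exact this

omit [IsFF K F] [IsAlgClosed K] [IsFF k Fb] [IsAlgClosed k] in
/-- no pole of `f - γ` on the disc. -/
theorem Points_sub_reg {f : F} (hf : f ∈ discRing R r e) (γ : K) :
    ∀ P', r P' = e → 0 ≤ P'.ord (f - algebraMap K F γ) := by
  intro P' hP'
  by_cases h0 : f - algebraMap K F γ = 0
  · rw [h0, Place.ord_zero]
  · exact DiscParam_ord_sub_nonneg P' γ (hf.2 P' hP') h0

/-- values of `f ∈ discRing` on the disc are integral. -/
theorem Points_value_mem (hr : IsRedMap R r) {f : F} (hf : f ∈ discRing R r e) {P : Place K F}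
    (hP : r P = e) {γ : K} (hγ : f = algebraMap K F γ ∨ 0 < P.ord (f - algebraMap K F γ)) :
    γ ∈ R.A := by
  have hfO : f ∈ R.O := hf.1
  rcases hγ with hγ | hb'
  · rw [← R.algebraMap_mem_iff, ← hγ]
    exact hfO
  have hsub0 : f - algebraMap K F γ ≠ 0 := by
    intro h0
    rw [h0, Place.ord_zero] at hb'
    exact lt_irrefl _ hb'
  have hnp := Points_sub_reg hf γ
  by_contra hbA
  have hb0 : γ ≠ 0 := fun h0 => hbA (h0 ▸ R.A.zero_mem)
  have hinv : γ⁻¹ ∈ R.A := (R.A.mem_or_inv_mem γ).resolve_left hbA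
  have hinv0 : R.redA γ⁻¹ = 0 := by
    by_contra h1
    have := (R.redA_ne_zero_iff.mp h1).2.2
    rw [inv_inv] at this
    exact hbA this
  set y : F := algebraMap K F γ⁻¹ * (f - algebraMap K F γ) with hy
  have hy' : y = algebraMap K F γ⁻¹ * f - 1 := by
    rw [hy, mul_sub, ← map_mul, inv_mul_cancel₀ hb0, map_one]
  have hmem : algebraMap K F γ⁻¹ * f ∈ R.O := R.O.mul_mem _ _ (R.algebraMap_mem _ hinv) hfO
  have hred : R.red y = -1 := by
    rw [hy', R.red_sub hmem R.O.one_mem, R.red_mul (R.algebraMap_mem _ hinv) hfO,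
      R.red_algebraMap hinv, hinv0, map_zero, zero_mul, R.red_one, zero_sub]
  have hredne : R.red y ≠ 0 := by
    rw [hred]
    exact neg_ne_zero.mpr one_ne_zero
  have hc0 : algebraMap K F γ⁻¹ ≠ 0 := by
    simpa using hb0
  have hord : ∀ P' : Place K F, P'.ord y = P'.ord (f - algebraMap K F γ) := by
    intro P'
    rw [hy, P'.ord_mul hc0 hsub0, ord_algebraMap, zero_add]
  have hpos := hr.ord_red_pos hredne e (fun P' hP' => by rw [hord]; exact hnp P' hP') hP
    (by rw [hord]; exact hb')
  rw [hred, ord_neg, ← map_one (algebraMap k Fb), ord_algebraMap] at hpos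
  exact lt_irrefl _ hpos

/-- (P2) Values of `f ∈ discRing` at points of the disc are integral and reduce to `f̄(e)`:
elementary form.  `f(P) = γ` means `f = γ` or `0 < ord_P (f - γ)`.
PROOF: as `IsRedMap.exists_eval_small`. -/
theorem exists_value (hr : IsRedMap R r) {f : F} (hf : f ∈ discRing R r e) {P : Place K F}
    (hP : r P = e) :
    ∃ γ : K, γ ∈ R.A ∧ (f = algebraMap K F γ ∨ 0 < P.ord (f - algebraMap K F γ)) := by
  obtain ⟨γ, hγ⟩ := exists_eval P (hf.2 P hP)
  exact ⟨γ, Points_value_mem hr hf hP hγ, hγ⟩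

/-- (P3) if `f ∈ discRing` vanishes at a point of the disc then `f̄ = 0` or `f̄(e) = 0`; conversely
if `f̄ = 0` or `f̄(e) = 0` then all values of `f` on the disc are in `𝔪_A`. -/
theorem value_small_iff (hr : IsRedMap R r) {f : F} (hf : f ∈ discRing R r e) {P : Place K F}
    (hP : r P = e) {γ : K} (hγ : f = algebraMap K F γ ∨ 0 < P.ord (f - algebraMap K F γ)) :
    γ ∈ R.A.nonunits ↔ (R.red f = 0 ∨ 0 < e.ord (R.red f)) := by
  have hγA : γ ∈ R.A := Points_value_mem hr hf hP hγ
  have hfO : f ∈ R.O := hf.1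
  have hnp := Points_sub_reg hf γ
  have hred : R.red (f - algebraMap K F γ) = R.red f - algebraMap k Fb (R.redA γ) := by
    rw [R.red_sub hfO (R.algebraMap_mem _ hγA), R.red_algebraMap hγA]
  rw [Points_mem_nonunits_iff hγA]
  constructor
  · intro h0
    rw [h0, map_zero, sub_zero] at hred
    by_cases hf0 : R.red f = 0
    · exact Or.inl hf0
    right
    rcases hγ with hγ | hγ
    · exfalso
      apply hf0
      rw [hγ, R.red_algebraMap hγA, h0, map_zero]
    · have hpos := hr.ord_red_pos (by rw [hred]; exact hf0) e hnp hP hγ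
      rwa [hred] at hpos
  · intro h0
    by_contra hne
    have hcne : algebraMap k Fb (R.redA γ) ≠ 0 := by
      simpa using hne
    rcases hγ with hγ | hγ
    · have hrf : R.red f = algebraMap k Fb (R.redA γ) := by
        conv_lhs => rw [hγ]
        exact R.red_algebraMap hγA
      rcases h0 with h0 | h0
      · exact hcne (hrf ▸ h0)
      · rw [hrf, ord_algebraMap] at h0
        exact lt_irrefl _ h0
    · rcases h0 with h0 | h0
      · rw [h0, zero_sub] at hred
        have hpos := hr.ord_red_pos (by rw [hred]; exact neg_ne_zero.mpr hcne) e hnp hP hγ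
        rw [hred, ord_neg, ord_algebraMap] at hpos
        exact lt_irrefl _ hpos
      · have hredne : R.red (f - algebraMap K F γ) ≠ 0 := by
          rw [hred]
          intro h1
          rw [sub_eq_zero.mp h1, ord_algebraMap] at h0
          exact lt_irrefl _ h0
        have hpos := hr.ord_red_pos hredne e hnp hP hγ
        rw [hred] at hpos
        have h1 := min_le_ord_add e (f := R.red f) (g := -(R.red f - algebraMap k Fb (R.redA γ)))
          (by rw [← sub_eq_add_neg, sub_sub_cancel]; exact hcne)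
        rw [ord_neg, ← sub_eq_add_neg, sub_sub_cancel, ord_algebraMap] at h1
        have h2 := lt_min h0 hpos
        omega

/-- (P4) **division by `x - α`.** -/
theorem div_mem_discRing (hr : IsRedMap R r) (h : DiscHyp R r e x ρ) {α : K}
    (hα : α ∈ R.A.nonunits) {P₀ : Place K F} (hP₀ : r P₀ = e)
    (hx : 0 < P₀.ord (x - algebraMap K F α)) {f : F} (hf : f ∈ discRing R r e)
    (hf0 : f = 0 ∨ 0 < P₀.ord f) :
    f / (x - algebraMap K F α) ∈ discRing R r e := by
  classical
  obtain ⟨hαA, hα0⟩ := Points_small hα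
  have hred : R.red (x - algebraMap K F α) = R.red x := DiscParam_sub_small h.red_ne hαA hα0
  have hne : R.red (x - algebraMap K F α) ≠ 0 := by rw [hred]; exact h.red_ne
  have hne0 : x - algebraMap K F α ≠ 0 := R.ne_zero_of_red_ne_zero hne
  have hall := hr.ord_eq_ite hne e
    (fun P hP => DiscParam_ord_sub_nonneg P α (h.reg P hP) hne0) (by rw [hred, h.ord_e]) hP₀ hx
  refine ⟨?_, fun P hP => ?_⟩
  · rw [div_eq_mul_inv]
    exact R.O.mul_mem _ _ hf.1 (R.inv_mem_of_red_ne_zero hne)
  · by_cases hfz : f = 0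
    · rw [hfz, zero_div, Place.ord_zero]
    · have hpos : 0 < P₀.ord f := hf0.resolve_left hfz
      rw [ord_div P hfz hne0, hall P hP]
      split_ifs with hPP
      · rw [hPP]
        omega
      · have := hf.2 P hP
        omega

end Fermat.Agent.S36.Val
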