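import Fermat.Agent.S36.Val.Disc.Points

/-!
# S36/Val/Disc/Taylor : Taylor expansion, normal form, fractions
-/

set_option autoImplicit false

namespace Fermat.Agent.S36.Val

open AlgebraicCurve Fermat.Agent.Lib.RR Fermat.Agent.GAL.RED Polynomial

variable {K F k Fb : Type*} [Field K] [Field F] [Algebra K F] [Field k] [Field Fb] [Algebra k Fb]
variable [IsFF K F] [IsAlgClosed K] [IsFF k Fb] [IsAlgClosed k]
variable {R : RedData K F k Fb} {r : Place K F → Place k Fb} {e : Place k Fb} {x : F} {ρ : K}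

omit [IsFF K F] [IsAlgClosed K] [IsFF k Fb] [IsAlgClosed k] in
theorem Taylor.zero_mem_nonunits : (0 : K) ∈ R.A.nonunits := by
  rw [ValuationSubring.mem_nonunits_iff, map_zero]
  exact zero_lt_one

omit [IsFF K F] [IsAlgClosed K] [IsFF k Fb] [IsAlgClosed k] in
theorem Taylor.mem_of_mem_nonunits {u : K} (hu : u ∈ R.A.nonunits) : u ∈ R.A := by
  rw [ValuationSubring.mem_nonunits_iff] at hu
  exact (R.A.valuation_le_one_iff u).1 hu.le

omit [IsFF K F] [IsAlgClosed K] [IsFF k Fb] [IsAlgClosed k] in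
theorem Taylor.mul_mem_nonunits {u w : K} (hu : u ∈ R.A.nonunits) (hw : w ∈ R.A) :
    u * w ∈ R.A.nonunits := by
  rw [ValuationSubring.mem_nonunits_iff] at hu ⊢
  have hw' := (R.A.valuation_le_one_iff w).2 hw
  rw [map_mul]
  calc R.A.valuation u * R.A.valuation w ≤ R.A.valuation u * 1 := by gcongr
    _ = R.A.valuation u := mul_one _
    _ < 1 := hu

omit [IsFF K F] [IsAlgClosed K] [IsFF k Fb] [IsAlgClosed k] in
theorem Taylor.algebraMap_mem {a : K} (ha : a ∈ R.A) : algebraMap K F a ∈ discRing R r e :=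
  ⟨R.algebraMap_mem a ha, fun P _ => by rw [ord_algebraMap]⟩

omit [IsFF K F] [IsAlgClosed K] [IsFF k Fb] [IsAlgClosed k] in
theorem Taylor.x_mem (h : DiscHyp R r e x ρ) : x ∈ discRing R r e :=
  ⟨R.mem_of_red_ne_zero h.red_ne, h.reg⟩

omit [IsFF K F] [IsAlgClosed K] [IsFF k Fb] [IsAlgClosed k] in
theorem Taylor.x_ne (h : DiscHyp R r e x ρ) : x ≠ 0 := R.ne_zero_of_red_ne_zero h.red_ne

theorem Taylor.exists_origin (hr : IsRedMap R r) (h : DiscHyp R r e x ρ) :
    ∃ P₀ : Place K F, r P₀ = e ∧ P₀.ord x = 1 := by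
  obtain ⟨P₀, hP₀, hP⟩ := exists_point hr h 0 Taylor.zero_mem_nonunits
  refine ⟨P₀, hP₀, ?_⟩
  have := hP P₀ hP₀
  rwa [map_zero, sub_zero, if_pos rfl] at this

theorem Taylor.div_x_mem (hr : IsRedMap R r) (h : DiscHyp R r e x ρ) {P₀ : Place K F}
    (hP₀ : r P₀ = e) (hx : P₀.ord x = 1) {f : F} (hf : f ∈ discRing R r e)
    (hf0 : f = 0 ∨ 0 < P₀.ord f) : f / x ∈ discRing R r e := by
  have := div_mem_discRing hr h Taylor.zero_mem_nonunits hP₀
    (by rw [map_zero, sub_zero, hx]; norm_num) hf hf0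
  rwa [map_zero, sub_zero] at this

theorem Taylor.step (hr : IsRedMap R r) (h : DiscHyp R r e x ρ) {P₀ : Place K F}
    (hP₀ : r P₀ = e) (hx : P₀.ord x = 1) {g : F} (hg : g ∈ discRing R r e) :
    ∃ (γ : K) (g' : F), γ ∈ R.A ∧ g' ∈ discRing R r e ∧ g = algebraMap K F γ + x * g' := by
  obtain ⟨γ, hγ, hval⟩ := exists_value hr hg hP₀
  have hsub : g - algebraMap K F γ ∈ discRing R r e :=
    Subring.sub_mem _ hg (Taylor.algebraMap_mem hγ)
  have hdiv := Taylor.div_x_mem hr h hP₀ hx hsub (hval.imp sub_eq_zero.2 id)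
  refine ⟨γ, _, hγ, hdiv, ?_⟩
  have := Taylor.x_ne h
  field_simp
  ring

/-- (P5) **Taylor expansion** at the zero of `x`: for every `n`,
`f = ∑_{i<n} a_i x^i + x^n f_n`, `a_i ∈ A`, `f_n ∈ discRing`. -/
theorem exists_taylor (hr : IsRedMap R r) (h : DiscHyp R r e x ρ) {f : F}
    (hf : f ∈ discRing R r e) (n : ℕ) :
    ∃ (a : ℕ → K) (g : F), (∀ i, a i ∈ R.A) ∧ g ∈ discRing R r e ∧
      f = ∑ i ∈ Finset.range n, algebraMap K F (a i) * x ^ i + x ^ n * g := by
  obtain ⟨P₀, hP₀, hx⟩ := Taylor.exists_origin hr h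
  induction n with
  | zero => exact ⟨fun _ => 0, f, fun _ => R.A.zero_mem, hf, by simp⟩
  | succ n ih =>
    obtain ⟨a, g, ha, hg, hfe⟩ := ih
    obtain ⟨γ, g', hγ, hg', hge⟩ := Taylor.step hr h hP₀ hx hg
    refine ⟨Function.update a n γ, g', ?_, hg', ?_⟩
    · intro i
      by_cases hi : i = n
      · subst hi
        rw [Function.update_self]
        exact hγ
      · rw [Function.update_of_ne hi]
        exact ha i
    · rw [Finset.sum_range_succ, Function.update_self]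
      have h1 : ∑ i ∈ Finset.range n, algebraMap K F (Function.update a n γ i) * x ^ i =
          ∑ i ∈ Finset.range n, algebraMap K F (a i) * x ^ i := by
        refine Finset.sum_congr rfl fun i hi => ?_
        rw [Function.update_of_ne (Finset.mem_range.1 hi).ne]
      rw [h1]
      conv_lhs => rw [hfe, hge]
      ring

theorem Taylor.leading_aux (hr : IsRedMap R r) (h : DiscHyp R r e x ρ) {P₀ : Place K F}
    (hP₀ : r P₀ = e) (hx : P₀.ord x = 1) (m : ℕ) : ∀ {f : F}, f ∈ discRing R r e → f ≠ 0 →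
    P₀.ord f = m → ∃ (a : K) (g : F), a ∈ R.A ∧ a ≠ 0 ∧ g ∈ discRing R r e ∧
      f = x ^ m * (algebraMap K F a + x * g) := by
  have hx0 := Taylor.x_ne h
  induction m with
  | zero =>
    intro f hf hf0 hord
    obtain ⟨γ, g', hγ, hg', hge⟩ := Taylor.step hr h hP₀ hx hf
    refine ⟨γ, g', hγ, ?_, hg', by rw [pow_zero, one_mul]; exact hge⟩
    rintro rfl
    rw [map_zero, zero_add] at hge
    have hg0 : g' ≠ 0 := by
      rintro rfl
      exact hf0 (by rw [hge, mul_zero])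
    rw [hge, P₀.ord_mul hx0 hg0, hx] at hord
    have := hg'.2 P₀ hP₀
    simp only [Nat.cast_zero] at hord
    omega
  | succ m ih =>
    intro f hf hf0 hord
    have hdiv := Taylor.div_x_mem hr h hP₀ hx hf (Or.inr (by rw [hord]; positivity))
    have hdiv0 : f / x ≠ 0 := div_ne_zero hf0 hx0
    have hord' : P₀.ord (f / x) = m := by
      rw [ord_div P₀ hf0 hx0, hord, hx]
      push_cast
      ring
    obtain ⟨a, g, ha, ha0, hg, hfe⟩ := ih hdiv hdiv0 hord'
    refine ⟨a, g, ha, ha0, hg, ?_⟩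
    rw [pow_succ, mul_assoc, mul_comm x, ← mul_assoc, ← hfe]
    field_simp

/-- (P6) a nonzero `f` has a nonzero Taylor coefficient: `f = x^m g`, `g(P₀) ≠ 0`; so
`f = x^m (a + x g')` with `a ≠ 0`. -/
theorem exists_leading (hr : IsRedMap R r) (h : DiscHyp R r e x ρ) {f : F}
    (hf : f ∈ discRing R r e) (hf0 : f ≠ 0) :
    ∃ (m : ℕ) (a : K) (g : F), a ∈ R.A ∧ a ≠ 0 ∧ g ∈ discRing R r e ∧
      f = x ^ m * (algebraMap K F a + x * g) := by
  obtain ⟨P₀, hP₀, hx⟩ := Taylor.exists_origin hr h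
  refine ⟨(P₀.ord f).toNat, Taylor.leading_aux hr h hP₀ hx _ hf hf0 ?_⟩
  rw [Int.toNat_of_nonneg (hf.2 P₀ hP₀)]

omit [IsFF K F] [IsAlgClosed K] [IsFF k Fb] [IsAlgClosed k] in
theorem Taylor.intPoly_add {A : ValuationSubring K} {G H : K[X]} (hG : IntPoly A G)
    (hH : IntPoly A H) : IntPoly A (G + H) := fun i => by
  rw [coeff_add]
  exact A.add_mem _ _ (hG i) (hH i)

omit [IsFF K F] [IsAlgClosed K] [IsFF k Fb] [IsAlgClosed k] in
theorem Taylor.intPoly_mul {A : ValuationSubring K} {G H : K[X]} (hG : IntPoly A G)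
    (hH : IntPoly A H) : IntPoly A (G * H) := fun i => by
  rw [coeff_mul]
  exact sum_mem fun c _ => A.mul_mem _ _ (hG _) (hH _)

omit [IsFF K F] [IsAlgClosed K] [IsFF k Fb] [IsAlgClosed k] in
theorem Taylor.intPoly_C {A : ValuationSubring K} {a : K} (ha : a ∈ A) : IntPoly A (C a) :=
  fun i => by
    rw [coeff_C]
    split_ifs
    · exact ha
    · exact A.zero_mem

omit [IsFF K F] [IsAlgClosed K] [IsFF k Fb] [IsAlgClosed k] in
theorem Taylor.intPoly_X_pow {A : ValuationSubring K} (n : ℕ) : IntPoly A (X ^ n : K[X]) :=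
  fun i => by
    rw [coeff_X_pow]
    split_ifs
    · exact A.one_mem
    · exact A.zero_mem

omit [IsFF K F] [IsAlgClosed K] [IsFF k Fb] [IsAlgClosed k] in
theorem Taylor.intPoly_sum {A : ValuationSubring K} {ι : Type*} (t : Finset ι) (G : ι → K[X])
    (hG : ∀ i ∈ t, IntPoly A (G i)) : IntPoly A (∑ i ∈ t, G i) := fun j => by
  rw [finsetSum_coeff]
  exact sum_mem fun i hi => hG i hi j

/-- (P7) **normal form**: every nonzero `f ∈ discRing` is
`η * (G(y) + μ * y^n * g)`, `η ≠ 0`, `G` primitive, `μ ∈ 𝔪_A`, `g ∈ discRing`, `y = x / ρ`.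
PROOF: `exists_leading` gives a nonzero coefficient `a_m`; by `arch` choose `n > m` with
`|ρ^n| < |a_m ρ^m|`; `exists_taylor` at `n`; `η :=` a coefficient `a_i ρ^i`, `i < n`, of maximal
valuation. -/
theorem exists_normal_form (hr : IsRedMap R r) (h : DiscHyp R r e x ρ) {f : F}
    (hf : f ∈ discRing R r e) (hf0 : f ≠ 0) :
    ∃ (η μ : K) (G : K[X]) (n : ℕ) (g : F), η ≠ 0 ∧ η ∈ R.A ∧ μ ∈ R.A.nonunits ∧ PrimPoly R.A G ∧
      g ∈ discRing R r e ∧
      f = algebraMap K F η * (aeval ((algebraMap K F ρ)⁻¹ * x) G +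
        algebraMap K F μ * ((algebraMap K F ρ)⁻¹ * x) ^ n * g) := by
  obtain ⟨m, a, g₀, haA, ha0, hg₀, hf1⟩ := exists_leading hr h hf hf0
  have hρA : ρ ∈ R.A := Taylor.mem_of_mem_nonunits h.ρ_small
  have hη0 : a * ρ ^ m ≠ 0 := mul_ne_zero ha0 (pow_ne_zero _ h.ρ_ne)
  obtain ⟨n₀, hn₀⟩ := h.arch (a * ρ ^ m) hη0
  obtain ⟨c, g₁, hc, hg₁, hg₀'⟩ := exists_taylor hr h hg₀ n₀
  set G₀ : K[X] := C a * X ^ m + X ^ (m + 1) * ∑ i ∈ Finset.range n₀, C (c i) * X ^ i with hG₀
  have hG₀x : f = aeval x G₀ + x ^ (m + 1 + n₀) * g₁ := by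
    rw [hf1, hg₀', hG₀]
    simp only [map_add, map_mul, aeval_C, map_pow, aeval_X, map_sum]
    ring
  have hG₀A : IntPoly R.A G₀ :=
    Taylor.intPoly_add (Taylor.intPoly_mul (Taylor.intPoly_C haA) (Taylor.intPoly_X_pow _))
      (Taylor.intPoly_mul (Taylor.intPoly_X_pow _) (Taylor.intPoly_sum _ _ fun i _ =>
        Taylor.intPoly_mul (Taylor.intPoly_C (hc i)) (Taylor.intPoly_X_pow _)))
  have hG₀m : G₀.coeff m = a := by
    rw [hG₀, coeff_add, coeff_C_mul_X_pow, if_pos rfl, coeff_X_pow_mul', if_neg (by omega),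
      add_zero]
  set H : K[X] := G₀.comp (C ρ * X) with hH
  have hHc : ∀ i, H.coeff i = G₀.coeff i * ρ ^ i := fun i => comp_C_mul_X_coeff
  have hHA : ∀ i, H.coeff i ∈ R.A := fun i => by
    rw [hHc]
    exact R.A.mul_mem _ _ (hG₀A i) (pow_mem hρA i)
  have hHm : H.coeff m = a * ρ ^ m := by rw [hHc, hG₀m]
  have hmdeg : m ≤ H.natDegree := le_natDegree_of_ne_zero (by rw [hHm]; exact hη0)
  obtain ⟨s, hs0, hsA, ⟨i₁, hi₁⟩⟩ := R.exists_scale_family
    (fun i : Fin (H.natDegree + 1) => H.coeff i) (fun h0 => hη0 (by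
      rw [← hHm]
      exact congrFun h0 ⟨m, by omega⟩))
  have hsA' : ∀ i, s * H.coeff i ∈ R.A := by
    intro i
    by_cases hi : i < H.natDegree + 1
    · exact hsA ⟨i, hi⟩
    · rw [coeff_eq_zero_of_natDegree_lt (by omega), mul_zero]
      exact R.A.zero_mem
  obtain ⟨hu0, -, huinv⟩ := R.redA_ne_zero_iff.1 hi₁
  have hsinv : s⁻¹ ∈ R.A := by
    have h1 : s⁻¹ = H.coeff i₁ * (s * H.coeff i₁)⁻¹ := by
      have h2 : H.coeff i₁ ≠ 0 := right_ne_zero_of_mul hu0
      field_simp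
    rw [h1]
    exact R.A.mul_mem _ _ (hHA _) huinv
  have hμ : s * ρ ^ (m + 1 + n₀) ∈ R.A.nonunits := by
    have h1 : s * ρ ^ (m + 1 + n₀) = ρ ^ n₀ * (a * ρ ^ m)⁻¹ * (s * H.coeff m * ρ ^ (m + 1)) := by
      rw [hHm]
      have hρ0 := h.ρ_ne
      field_simp
      ring
    rw [h1]
    exact Taylor.mul_mem_nonunits hn₀ (R.A.mul_mem _ _ (hsA' m) (pow_mem hρA _))
  refine ⟨s⁻¹, s * ρ ^ (m + 1 + n₀), C s * H, m + 1 + n₀, g₁, inv_ne_zero hs0, hsinv, hμ,
    ⟨fun i => by rw [coeff_C_mul]; exact hsA' i, i₁, ?_⟩, hg₁, ?_⟩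
  · rw [coeff_C_mul, ValuationSubring.mem_nonunits_iff, R.redA_ne_zero_iff_valuation.1 hi₁]
    exact lt_irrefl _
  · have hρF : algebraMap K F ρ ≠ 0 := by simpa using h.ρ_ne
    have hsF : algebraMap K F s ≠ 0 := by simpa using hs0
    have h1 : aeval ((algebraMap K F ρ)⁻¹ * x) H = aeval x G₀ := by
      rw [hH, aeval_comp]
      congr 1
      simp only [map_mul, aeval_C, aeval_X]
      field_simp
    rw [map_mul, aeval_C, h1, hG₀x]
    simp only [map_mul, map_pow, map_inv₀, mul_pow, inv_pow]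
    field_simp

/-- the value of `x` at a point of the disc. -/
theorem Taylor.exists_x_value (hr : IsRedMap R r) (h : DiscHyp R r e x ρ) (P : Place K F)
    (hP : r P = e) : ∃ α : K, α ∈ R.A.nonunits ∧ 0 < P.ord (x - algebraMap K F α) := by
  obtain ⟨γ, hγ, hv⟩ := exists_value hr (Taylor.x_mem h) hP
  have hsmall := (value_small_iff hr (Taylor.x_mem h) hP hv).2
    (Or.inr (by rw [h.ord_e]; norm_num))
  refine ⟨γ, hsmall, ?_⟩
  rcases hv with hv | hv
  · exfalso
    have := h.ord_e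
    rw [hv, R.red_algebraMap', ord_algebraMap] at this
    norm_num at this
  · exact hv

/-- (P8) every element of `F` is a quotient of elements of `discRing`.
PROOF: the poles `P_1, …` of `f` on the disc are finitely many; `h := ∏ (x - x(P_i))^{n_i}`;
`f h` has no pole on the disc; scale by a constant (`R.IsCartesian`-free: use
`R.O.mem_or_inv_mem` and ... see `exists_scale`). -/
theorem exists_frac (hr : IsRedMap R r) (hC : R.IsCartesian) (h : DiscHyp R r e x ρ) (f : F) :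
    ∃ g₁ g₂ : F, g₁ ∈ discRing R r e ∧ g₂ ∈ discRing R r e ∧ g₂ ≠ 0 ∧ f = g₁ / g₂ := by
  classical
  rcases eq_or_ne f 0 with rfl | hf0
  · exact ⟨0, 1, Subring.zero_mem _, Subring.one_mem _, one_ne_zero, by simp⟩
  set S : Finset (Place K F) :=
    (divOf (K := K) f).support.filter (fun P => r P = e ∧ P.ord f < 0) with hS
  have hSmem : ∀ P, P ∈ S ↔ r P = e ∧ P.ord f < 0 := by
    intro P
    rw [hS, Finset.mem_filter, Finsupp.mem_support_iff, divOf_apply]
    constructor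
    · exact fun h => h.2
    · exact fun h => ⟨h.2.ne, h⟩
  choose! α hα hαord using Taylor.exists_x_value hr h
  set n : ℕ := S.sup (fun P => (-(P.ord f)).toNat) with hn
  set hh : F := ∏ P ∈ S, (x - algebraMap K F (α P)) ^ n with hhh
  have hfac : ∀ P, r P = e → x - algebraMap K F (α P) ∈ discRing R r e := fun P hP =>
    Subring.sub_mem _ (Taylor.x_mem h) (Taylor.algebraMap_mem (Taylor.mem_of_mem_nonunits (hα P hP)))
  have hfac0 : ∀ P, r P = e → x - algebraMap K F (α P) ≠ 0 := by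
    intro P hP h0
    have := hαord P hP
    rw [h0, Place.ord_zero] at this
    exact lt_irrefl _ this
  have hprodmem : ∀ S' : Finset (Place K F), S' ⊆ S →
      ∏ P ∈ S', (x - algebraMap K F (α P)) ^ n ∈ discRing R r e := fun S' hS' =>
    Subring.prod_mem _ fun P hP => Subring.pow_mem _ (hfac P ((hSmem P).1 (hS' hP)).1) n
  have hprod0 : ∀ S' : Finset (Place K F), S' ⊆ S →
      ∏ P ∈ S', (x - algebraMap K F (α P)) ^ n ≠ 0 := fun S' hS' =>
    Finset.prod_ne_zero_iff.2 fun P hP => pow_ne_zero _ (hfac0 P ((hSmem P).1 (hS' hP)).1)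
  have hhmem : hh ∈ discRing R r e := hprodmem S (Finset.Subset.refl _)
  have hh0 : hh ≠ 0 := hprod0 S (Finset.Subset.refl _)
  have hreg : ∀ P, r P = e → 0 ≤ P.ord (f * hh) := by
    intro P hP
    rw [P.ord_mul hf0 hh0]
    by_cases hpole : P.ord f < 0
    · have hPS : P ∈ S := (hSmem P).2 ⟨hP, hpole⟩
      rw [hhh, ← Finset.mul_prod_erase S _ hPS,
        P.ord_mul (pow_ne_zero _ (hfac0 P hP)) (hprod0 _ (Finset.erase_subset _ _)), ord_pow]
      have h1 : (-(P.ord f)).toNat ≤ n := Finset.le_sup (f := fun P => (-(P.ord f)).toNat) hPS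
      have h2 := (hprodmem _ (Finset.erase_subset P S)).2 P hP
      have h3 := hαord P hP
      have h4 : (n : ℤ) ≤ n * P.ord (x - algebraMap K F (α P)) := by nlinarith
      omega
    · have := hhmem.2 P hP
      omega
  obtain ⟨c, hc0, hc⟩ := hC.exists_scale (mul_ne_zero hf0 hh0)
  have hcO := R.mem_of_red_ne_zero hc
  have hcF : algebraMap K F c ≠ 0 := by simpa using hc0
  by_cases hcA : c ∈ R.A
  · refine ⟨algebraMap K F c * (f * hh), algebraMap K F c * hh, ⟨hcO, fun P hP => ?_⟩,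
      Subring.mul_mem _ (Taylor.algebraMap_mem hcA) hhmem, mul_ne_zero hcF hh0, by field_simp⟩
    rw [P.ord_mul hcF (mul_ne_zero hf0 hh0), ord_algebraMap, zero_add]
    exact hreg P hP
  · have hcinv : c⁻¹ ∈ R.A := (R.A.mem_or_inv_mem c).resolve_left hcA
    refine ⟨f * hh, hh, ⟨?_, hreg⟩, hhmem, hh0, by field_simp⟩
    have h1 : f * hh = algebraMap K F c⁻¹ * (algebraMap K F c * (f * hh)) := by
      rw [← mul_assoc, ← map_mul, inv_mul_cancel₀ hc0, map_one, one_mul]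
    rw [h1]
    exact R.O.mul_mem _ _ (R.algebraMap_mem _ hcinv) hcO

end Fermat.Agent.S36.Val
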